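import Fermat.Agent.TwoAdic.Cuspidal.HeartRep
import Mathlib.Logic.Equiv.Prod
import Mathlib.Algebra.BigOperators.Ring.Finset
import Mathlib.RepresentationTheory.Basic

/-!
# Hearts at several places

`heartPi` is the tensor product of the hearts at finitely many places, on functions of
`∏ Fᵢ^*`, acting by the product of the kernels. Splitting off a place exhibits it as an
iterated heart (`heartSplit_rep`), and at no place it is trivial.
-/

set_option autoImplicit false
set_option linter.unusedSectionVars false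

open scoped BigOperators MatrixGroups

noncomputable section

namespace Fermat.Agent.TwoAdic.Cuspidal

section One

variable {F : Type*} [Field F] [Fintype F] [DecidableEq F] {k : Type*} [Field k]
  {ψ : AddChar F k} (hψ : ψ ≠ 1) (hcard : ((Fintype.card F + 1 : ℕ) : k) = 0)

include hψ hcard

theorem heartKernel_one (m n : Fˣ) : heartKernel ψ 1 m n = if n = m then (1 : k) else 0 := by
  simp [heartKernel, Units.ext_iff]

/-- The kernels compose like the matrices. -/
theorem sum_heartKernel_mul (g h : GL (Fin 2) F) (m n : Fˣ) :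
    ∑ l : Fˣ, heartKernel ψ g m l * heartKernel ψ h l n = heartKernel ψ (g * h) m n := by
  classical
  have := congrFun (LinearMap.congr_fun
    (map_mul (heartRep (MonoidHom.id (GL (Fin 2) F))
      (Representation.trivial k (GL (Fin 2) F) k) hcard hψ) g h) (Pi.single n 1)) m
  rw [Module.End.mul_apply] at this
  simp only [heartRep_apply, MonoidHom.id_apply, Representation.trivial_apply,
    smul_eq_mul, Pi.single_apply, mul_ite, mul_one, mul_zero, Finset.sum_ite_eq',
    Finset.mem_univ, if_true] at this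
  exact this.symm

end One

variable {ι : Type*} [Fintype ι] [DecidableEq ι] {F : ι → Type*} [∀ i, Field (F i)]
  [∀ i, Fintype (F i)] [∀ i, DecidableEq (F i)] {k : Type*} [Field k]
  {G : Type*} [Group G] (π : ∀ i, G →* GL (Fin 2) (F i)) {ψ : ∀ i, AddChar (F i) k}
  (hψ : ∀ i, ψ i ≠ 1) (hcard : ∀ i, ((Fintype.card (F i) + 1 : ℕ) : k) = 0)

variable (ψ) in
/-- The product of the kernels. -/
def piKernel (g : G) (m n : ∀ i, (F i)ˣ) : k := ∏ i, heartKernel (ψ i) (π i g) (m i) (n i)

include hψ hcard in
theorem piKernel_one (m n : ∀ i, (F i)ˣ) : piKernel π ψ 1 m n = if n = m then 1 else 0 := by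
  simp only [piKernel, map_one, heartKernel_one (hψ _) (hcard _)]
  rw [Fintype.prod_ite_zero]
  simp [funext_iff]

include hψ hcard in
theorem sum_piKernel_mul (g h : G) (m n : ∀ i, (F i)ˣ) :
    ∑ l : ∀ i, (F i)ˣ, piKernel π ψ g m l * piKernel π ψ h l n = piKernel π ψ (g * h) m n := by
  simp only [piKernel, ← Finset.prod_mul_distrib, map_mul,
    ← sum_heartKernel_mul (hψ _) (hcard _)]
  rw [← Fintype.piFinset_univ, ← Finset.prod_univ_sum (fun _ => Finset.univ)
    fun i l => heartKernel (ψ i) (π i g) (m i) l * heartKernel (ψ i) (π i h) l (n i)]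

/-- The tensor product of the hearts. -/
def heartPi : Representation k G ((∀ i, (F i)ˣ) → k) where
  toFun g := LinearMap.pi fun m => ∑ n, piKernel π ψ g m n • LinearMap.proj n
  map_one' := by
    refine LinearMap.ext fun φ => funext fun m => ?_
    simp [piKernel_one π hψ hcard]
  map_mul' g h := by
    refine LinearMap.ext fun φ => funext fun m => ?_
    simp only [Module.End.mul_apply, LinearMap.pi_apply, LinearMap.coe_sum, Finset.sum_apply,
      LinearMap.smul_apply, LinearMap.coe_proj, smul_eq_mul,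
      ← sum_piKernel_mul π hψ hcard g h, Finset.sum_mul, Finset.mul_sum]
    rw [Finset.sum_comm]
    simp [mul_assoc]

theorem heartPi_apply (g : G) (φ : (∀ i, (F i)ˣ) → k) (m : ∀ i, (F i)ˣ) :
    heartPi π hψ hcard g φ m = ∑ n, piKernel π ψ g m n * φ n := by
  simp [heartPi]

theorem heartPi_of_isEmpty [IsEmpty ι] (g : G) : heartPi π hψ hcard g = 1 := by
  refine LinearMap.ext fun φ => funext fun m => ?_
  simp [heartPi_apply, piKernel, Subsingleton.elim _ m]

/-- Elements which are scalar at every place act trivially. -/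
theorem heartPi_eq_one_of_scalar {g : G}
    (hg : ∀ i, (π i g) 0 1 = 0 ∧ (π i g) 1 0 = 0 ∧ (π i g) 0 0 = (π i g) 1 1) :
    heartPi π hψ hcard g = 1 := by
  refine LinearMap.ext fun φ => funext fun m => ?_
  have hd : ∀ i, (π i g) 1 1 ≠ 0 := fun i h => by
    have := (π i g).det_ne_zero
    simp [Matrix.det_fin_two, (hg i).1, (hg i).2.1, h] at this
  have : ∀ n, piKernel π ψ g m n = if n = m then 1 else 0 := fun n => by
    simp only [piKernel, heartKernel, (hg _).1, (hg _).2.1, (hg _).2.2, if_true, mul_zero,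
      zero_div, AddChar.map_zero_eq_one, mul_left_inj' (hd _), Fintype.prod_ite_zero]
    simp [funext_iff, Units.ext_iff]
  simp [heartPi_apply, this]

variable (i₀ : ι)

/-- Split off the place `i₀`. -/
def heartSplit (k : Type*) [Field k] :
    ((∀ i, (F i)ˣ) → k) ≃ₗ[k] ((F i₀)ˣ → (∀ j : {j // j ≠ i₀}, (F j)ˣ) → k) :=
  (LinearEquiv.funCongrLeft k k (Equiv.piSplitAt i₀ fun i => (F i)ˣ).symm).trans
    (LinearEquiv.curry k k (F i₀)ˣ (∀ j : {j // j ≠ i₀}, (F j)ˣ))

theorem heartSplit_apply (φ : (∀ i, (F i)ˣ) → k) (a : (F i₀)ˣ)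
    (b : ∀ j : {j // j ≠ i₀}, (F j)ˣ) :
    heartSplit i₀ k φ a b = φ ((Equiv.piSplitAt i₀ fun i => (F i)ˣ).symm (a, b)) := rfl

/-- Splitting off a place exhibits `heartPi` as an iterated heart. -/
theorem heartSplit_rep (g : G) (φ : (∀ i, (F i)ˣ) → k) :
    heartSplit i₀ k (heartPi π hψ hcard g φ) =
      heartRep (π i₀) (heartPi (fun j : {j // j ≠ i₀} => π j) (fun j => hψ j) (fun j => hcard j))
        (hcard i₀) (hψ i₀) g (heartSplit i₀ k φ) := by
  funext a b
  simp only [heartSplit_apply, heartRep_apply, heartPi_apply, Finset.sum_apply, Pi.smul_apply,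
    smul_eq_mul, Finset.mul_sum]
  rw [← Equiv.sum_comp (Equiv.piSplitAt i₀ fun i => (F i)ˣ).symm, Fintype.sum_prod_type,
    Finset.sum_comm]
  refine Finset.sum_congr rfl fun b' _ => Finset.sum_congr rfl fun a' _ => ?_
  simp only [piKernel]
  rw [← Finset.mul_prod_erase Finset.univ _ (Finset.mem_univ i₀),
    Finset.prod_subtype (Finset.univ.erase i₀) (p := (· ≠ i₀)) (by simp)]
  simp only [Equiv.piSplitAt_symm_apply, dite_true]
  rw [← mul_assoc]
  congr 1
  rw [mul_comm]
  congr 1
  refine Finset.prod_congr rfl fun j _ => ?_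
  simp only [dif_neg j.2]

end Fermat.Agent.TwoAdic.Cuspidal
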