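import Fermat.Agent.TwoAdic.Cuspidal.HeartKern
import Fermat.Agent.TwoAdic.Cuspidal.HeartPi
import Fermat.Agent.TwoAdic.Weil.Span

/-!
# The cuspidal Weil representation modulo `ϖ` is the heart

For `f₀ : R → k` with `μ ≡ 1`, restriction to a section of the norm is an equivariant surjection
`cusp μ → (∏ Fᵢ^* → k)` from the Weil representation onto `heartPi`, with kernel `ϖ cusp μ`.
-/

set_option autoImplicit false
set_option linter.unusedSectionVars false

open scoped BigOperators MatrixGroups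

noncomputable section

namespace Fermat.Agent.TwoAdic.Cuspidal

open Fermat.Agent.TwoAdic.Weil
open scoped Classical

theorem map_kern {F E : Type*} [Field F] [Field E] [Fintype F] [Fintype E] [Algebra F E]
    {R S : Type*} [CommRing R] [CommRing S] (f : R →+* S) (ψ : AddChar F R)
    [Invertible (Fintype.card F : R)] [Invertible (Fintype.card F : S)]
    (g : Matrix (Fin 2) (Fin 2) F) (x y : E) :
    f (kern ψ g x y) = kern (f.toMonoidHom.compAddChar ψ) g x y := by
  have h : f ⅟(Fintype.card F : R) = ⅟(Fintype.card F : S) := by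
    refine (invOf_eq_right_inv ?_).symm
    rw [← map_natCast f, ← map_mul, mul_invOf_self, map_one]
  simp only [kern]
  split_ifs <;> simp [h]

variable {ι : Type*} [Fintype ι] {F E : ι → Type*}
  [∀ i, Field (F i)] [∀ i, Field (E i)] [∀ i, Fintype (F i)] [∀ i, Fintype (E i)]
  [∀ i, Algebra (F i) (E i)] [∀ i, IsPlane (F i) (E i)] [∀ i, DecidableEq (F i)]
  {A : Type*} [CommRing A] {R : Type*} [CommRing R] [IsDomain R] {k : Type*} [Field k]
  (f₀ : R →+* k) (d : Data A F R) {μ : ∀ i, (E i)ˣ →* Rˣ}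

/-- The additive character at `i`, reduced. -/
def redChar (i : ι) : AddChar (F i) k := f₀.toMonoidHom.compAddChar (d.char i)

/-- The reduction `GL₂(A) → GL₂(Fᵢ)`. -/
def projGL (i : ι) : GL (Fin 2) A →* GL (Fin 2) (F i) :=
  Matrix.GeneralLinearGroup.map (d.proj i)

theorem projGL_apply (i : ι) (g : GL (Fin 2) A) (a b : Fin 2) :
    projGL d i g a b = d.proj i (g a b) := rfl

variable (F E) in
/-- A section of the norm. -/
def normSec (n : ∀ i, (F i)ˣ) : ∀ i, E i :=
  (exists_norm_eq (F := F) (E := E) fun i => (n i : F i)).choose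

theorem norm_normSec (n : ∀ i, (F i)ˣ) (i : ι) :
    Algebra.norm (F i) (normSec F E n i) = n i :=
  (exists_norm_eq (F := F) (E := E) fun i => (n i : F i)).choose_spec i

theorem normSec_ne_zero (n : ∀ i, (F i)ˣ) (i : ι) : normSec F E n i ≠ 0 :=
  ne_zero_of_norm_ne_zero (fun i => by rw [norm_normSec]; exact (n i).ne_zero) i

/-- Reduction of `cusp μ`. -/
def cuspRed : cusp (F := F) μ →ₛₗ[f₀] ((∀ i, (F i)ˣ) → k) where
  toFun φ n := f₀ ((φ : (∀ i, E i) → R) (normSec F E n))
  map_add' φ φ' := by funext n; simp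
  map_smul' c φ := by funext n; simp

theorem cuspRed_apply (φ : cusp (F := F) μ) (n : ∀ i, (F i)ˣ) :
    cuspRed f₀ φ n = f₀ ((φ : (∀ i, E i) → R) (normSec F E n)) := rfl

variable {f₀} (hone : ∀ i (u : (E i)ˣ), f₀ (μ i u : R) = 1)

include hone

theorem map_muVal (u : ∀ i, (E i)ˣ) : f₀ (muVal μ u) = 1 := by
  simp [muVal, map_prod, hone]

/-- Modulo `ϖ` a function of `cusp μ` only depends on the norm. -/
theorem map_apply_eq_cuspRed (φ : cusp (F := F) μ) {x : ∀ i, E i} {n : ∀ i, (F i)ˣ}
    (hx : ∀ i, Algebra.norm (F i) (x i) = n i) :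
    f₀ ((φ : (∀ i, E i) → R) x) = cuspRed f₀ φ n := by
  have hx0 : ∀ i, x i ≠ 0 := ne_zero_of_norm_ne_zero fun i => by rw [hx i]; exact (n i).ne_zero
  set u : ∀ i, (E i)ˣ := unitsOf x hx0 * (unitsOf (normSec F E n) (normSec_ne_zero n))⁻¹ with hu
  have hxu : scale u (normSec F E n) = x :=
    funext fun i => by simp [hu, scale, unitsOf, normSec_ne_zero n i]
  have hu1 : ∀ i, Algebra.norm (F i) (u i : E i) = 1 := fun i => by
    have := congrArg (Algebra.norm (F i)) (congrFun hxu i)
    rw [scale, map_mul, norm_normSec, hx i] at this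
    exact mul_right_cancel₀ (n i).ne_zero (this.trans (one_mul _).symm)
  rw [← hxu, φ.2 u hu1, map_mul, map_muVal hone, one_mul, cuspRed_apply]

variable (hμ : IsCuspidal (F := F) μ) (hψ : ∀ i, redChar f₀ d i ≠ 1)
  (hcard : ∀ i, ((Fintype.card (F i) + 1 : ℕ) : k) = 0) (h2 : ∀ i, (2 : F i) ≠ 0)

/-- The element `diag(t, 1)`. -/
def diagUnit (t : Aˣ) : GL (Fin 2) A :=
  ⟨!![(t : A), 0; 0, 1], !![((t⁻¹ : Aˣ) : A), 0; 0, 1],
    by rw [Matrix.mul_fin_two, Matrix.one_fin_two]; simp,
    by rw [Matrix.mul_fin_two, Matrix.one_fin_two]; simp⟩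

omit hone in
theorem heartPi_diagUnit (t : Aˣ) (Φ : (∀ i, (F i)ˣ) → k) (m : ∀ i, (F i)ˣ) :
    heartPi (projGL d) hψ hcard (diagUnit t) Φ m =
      Φ (fun i => m i * Units.map (d.proj i : A →* F i) t) := by
  rw [heartPi_apply, Finset.sum_eq_single fun i => m i * Units.map (d.proj i : A →* F i) t]
  · simp [piKernel, heartKernel, projGL_apply, diagUnit]
  · intro n _ hn
    obtain ⟨i, hi⟩ := Function.ne_iff.1 hn
    have : piKernel (projGL d) (redChar f₀ d) (diagUnit t) m n = 0 := by
      refine Finset.prod_eq_zero (Finset.mem_univ i) ?_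
      simp [heartKernel, projGL_apply, diagUnit]
      exact fun h => hi (Units.ext (by simpa using h))
    rw [this, zero_mul]
  · simp

include hμ hψ h2 hcard

theorem cuspRed_weilCusp (s : GL (Fin 2) A) (hs : (s : Matrix (Fin 2) (Fin 2) A).det = 1)
    (φ : cusp (F := F) μ) :
    cuspRed f₀ (weilCusp d (s : Matrix (Fin 2) (Fin 2) A) φ) =
      heartPi (projGL d) hψ hcard s (cuspRed f₀ φ) := by
  funext m
  let inst : ∀ i, Invertible (Fintype.card (F i) : k) := fun i =>
    invertibleOfNonzero (card_cast_ne_zero (hcard i))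
  rw [cuspRed_apply, coe_weilCusp, weilOp_apply, map_sum, heartPi_apply]
  have hker : ∀ y : ∀ i, E i, f₀ (kernP d (s : Matrix (Fin 2) (Fin 2) A) (normSec F E m) y) =
      ∏ i, kern (redChar f₀ d i) (projGL d i s : Matrix (Fin 2) (Fin 2) (F i))
        (normSec F E m i) (y i) := fun y => by
    rw [kernP, map_prod]
    refine Finset.prod_congr rfl fun i _ => ?_
    let := d.inv i
    rw [map_kern]
    rfl
  simp only [map_mul, hker]
  rw [← Finset.sum_filter_of_ne (p := fun y => ∀ i, Algebra.norm (F i) (y i) ≠ 0) ?_]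
  swap
  · intro y _ hy i hi
    refine hy ?_
    rw [apply_eq_zero_of_zero hμ φ (Algebra.norm_eq_zero_iff.mp hi), map_zero, mul_zero]
  have hfib : ∀ i, (projGL d i s) 0 0 * (projGL d i s) 1 1 -
      (projGL d i s) 0 1 * (projGL d i s) 1 0 = 1 := fun i => by
    have := congrArg (d.proj i) hs
    simpa [Matrix.det_fin_two, projGL_apply] using this
  have hprod : ∀ n : ∀ i, (F i)ˣ, piKernel (projGL d) (redChar f₀ d) s m n =
      ∑ y ∈ Fintype.piFinset fun i =>
        Finset.univ.filter fun y : E i => Algebra.norm (F i) y = n i,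
        ∏ i, kern (redChar f₀ d i) (projGL d i s : Matrix (Fin 2) (Fin 2) (F i))
          (normSec F E m i) (y i) := fun n => by
    rw [← Finset.prod_univ_sum (fun i => Finset.univ.filter fun y : E i =>
      Algebra.norm (F i) y = n i) fun i y => kern (redChar f₀ d i)
      (projGL d i s : Matrix (Fin 2) (Fin 2) (F i)) (normSec F E m i) y]
    refine Finset.prod_congr rfl fun i _ => ?_
    exact (sum_kern_norm_fibre (hψ i) (h2 i) _ (hfib i) (norm_normSec m i) (n i)).symm
  simp only [hprod, Finset.sum_mul]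
  rw [Finset.sum_sigma' Finset.univ]
  refine Finset.sum_bij'
    (fun y hy => ⟨fun i => Units.mk0 _ ((Finset.mem_filter.1 hy).2 i), y⟩)
    (fun p _ => p.2) ?_ ?_ (fun _ _ => rfl) ?_ ?_
  · intro y hy
    simp
  · rintro ⟨n, y⟩ hp
    simp only [Finset.mem_sigma, Fintype.mem_piFinset, Finset.mem_filter, Finset.mem_univ,
      true_and] at hp ⊢
    exact fun i => by rw [hp i]; exact (n i).ne_zero
  · rintro ⟨n, y⟩ hp
    simp only [Finset.mem_sigma, Fintype.mem_piFinset, Finset.mem_filter, Finset.mem_univ,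
      true_and] at hp
    exact Sigma.ext (funext fun i => Units.ext (hp i)) HEq.rfl
  · intro y hy
    exact congrArg _ (map_apply_eq_cuspRed hone φ fun i => rfl)

/-- **The Weil representation reduces to the heart.** -/
theorem cuspRed_rep (g : GL (Fin 2) A) (φ : cusp (F := F) μ) :
    cuspRed f₀ (rep d μ g φ) = heartPi (projGL d) hψ hcard g (cuspRed f₀ φ) := by
  set t := Matrix.GeneralLinearGroup.det g with ht
  set s : GL (Fin 2) A := diagUnit t⁻¹ * g with hs
  have hsM : (s : Matrix (Fin 2) (Fin 2) A) = slPart g := rfl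
  have hg : g = diagUnit t * s := by
    rw [hs, ← mul_assoc]
    have : diagUnit t * diagUnit t⁻¹ = 1 := Units.ext <| by
      show !![(t : A), 0; 0, 1] * !![((t⁻¹ : Aˣ) : A), 0; 0, 1] = 1
      rw [Matrix.mul_fin_two, Matrix.one_fin_two]; simp
    rw [this, one_mul]
  conv_rhs => rw [hg, map_mul, Module.End.mul_apply]
  funext m
  rw [heartPi_diagUnit, rep_apply, Module.End.mul_apply, cuspRed_apply, dilOp_apply, map_mul,
    map_muVal hone, one_mul, ← cuspRed_weilCusp d hone hμ hψ hcard h2 s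
      (by rw [hsM, det_slPart]), hsM]
  refine map_apply_eq_cuspRed hone _ fun i => ?_
  rw [scale, map_mul, isNormLift_normLift d t i, norm_normSec]
  simp [mul_comm]

omit hμ hψ h2 hcard in
theorem cuspRed_surjective (hf : Function.Surjective f₀) :
    Function.Surjective (cuspRed (F := F) (E := E) (μ := μ) f₀) := by
  intro Φ
  choose l hl using hf
  obtain ⟨W, hW⟩ : ∃ W : (∀ i, (F i)ˣ) → R, ∀ n, W n =
      muVal μ (unitsOf (normSec F E n) (normSec_ne_zero n))⁻¹ * l (Φ n) := ⟨_, fun _ => rfl⟩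
  let val : (∀ i, E i) → R := fun x => if hx : ∀ i, x i ≠ 0 then
      muVal μ (unitsOf x hx) * W fun i => Units.mk0 (Algebra.norm (F i) (x i))
        (fun e => hx i (Algebra.norm_eq_zero_iff.mp e))
    else 0
  refine ⟨⟨val, fun u hu x => ?_⟩, funext fun n => ?_⟩
  · by_cases hx : ∀ i, x i ≠ 0
    · have hx' : ∀ i, scale u x i ≠ 0 := fun i => mul_ne_zero (u i).ne_zero (hx i)
      have hn : (fun i => Units.mk0 (Algebra.norm (F i) (scale u x i))
          (fun e => hx' i (Algebra.norm_eq_zero_iff.mp e))) =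
          fun i => Units.mk0 (Algebra.norm (F i) (x i))
            (fun e => hx i (Algebra.norm_eq_zero_iff.mp e)) :=
        funext fun i => Units.ext (by simp [scale, hu i])
      simp only [val, dif_pos hx, dif_pos hx']
      rw [hn, ← mul_assoc, ← muVal_mul]
      congr 2
      exact funext fun i => Units.ext rfl
    · have hx' : ¬ ∀ i, scale u x i ≠ 0 := fun h => hx fun i e => h i (by simp [scale, e])
      simp only [val, dif_neg hx, dif_neg hx', mul_zero]
  · show f₀ (val (normSec F E n)) = Φ n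
    simp only [val, dif_pos (normSec_ne_zero n), hW, map_mul, map_muVal hone, one_mul]
    rw [hl]
    congr 1
    exact funext fun i => Units.ext (norm_normSec n i)

omit hψ h2 hcard in
theorem cuspRed_eq_zero_iff {ϖ : R} (hϖ : ϖ ≠ 0) (hker : RingHom.ker f₀ = Ideal.span {ϖ})
    (φ : cusp (F := F) μ) : cuspRed f₀ φ = 0 ↔ ∃ y, φ = ϖ • y := by
  have hmem : f₀ ϖ = 0 := by
    rw [← RingHom.mem_ker, hker]; exact Ideal.mem_span_singleton_self ϖ
  constructor
  · intro h
    have hall : ∀ x, ∃ c, (φ : (∀ i, E i) → R) x = ϖ * c := by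
      intro x
      rw [← dvd_def, ← Ideal.mem_span_singleton, ← hker, RingHom.mem_ker]
      by_cases hx : ∀ i, x i ≠ 0
      · rw [map_apply_eq_cuspRed hone φ (n := fun i => Units.mk0 _
          fun e => hx i (Algebra.norm_eq_zero_iff.mp e)) fun i => rfl, h]
        rfl
      · obtain ⟨i, hi⟩ := not_forall.mp hx
        rw [apply_eq_zero_of_zero hμ φ (not_not.mp hi), map_zero]
    choose c hc using hall
    refine ⟨⟨c, fun u hu x => mul_left_cancel₀ hϖ ?_⟩, Subtype.ext (funext hc)⟩
    rw [← hc, φ.2 u hu x, hc]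
    ring
  · rintro ⟨y, rfl⟩
    funext n
    simp [cuspRed_apply, hmem]

end Fermat.Agent.TwoAdic.Cuspidal
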