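import Fermat.Agent.TwoAdic.Cuspidal.Kloosterman
import Mathlib.Topology.Compactification.OnePoint.ProjectiveLine

/-!
# The heart of the permutation module on `P¹(F)` in characteristic two

Fourier transform identifies `ker (sum) / constants` on `P¹(F)` with functions on `F^*`; the
generators of `GL₂(F)` go to the reduced Weil operators (translation ↦ multiplication by `ψ`,
diagonal ↦ scaling, `w` ↦ Kloosterman kernel). The coefficients form an arbitrary module, so the
case of several places follows by iteration.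
-/

set_option autoImplicit false

open scoped BigOperators MatrixGroups
open OnePoint

noncomputable section

namespace Fermat.Agent.TwoAdic.Cuspidal

variable {F : Type*} [Field F] [Fintype F] [DecidableEq F] {k : Type*} [Field k]
  {A : Type*} [AddCommGroup A] [Module k A]

instance fintypeOnePoint : Fintype (OnePoint F) := inferInstanceAs (Fintype (Option F))

/-- Sum of a function over the projective line. -/
def sumP1 (F k A : Type*) [Field F] [Fintype F] [Field k] [AddCommGroup A] [Module k A] :
    (OnePoint F → A) →ₗ[k] A where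
  toFun f := f ∞ + ∑ x : F, f (x : OnePoint F)
  map_add' f g := by simp only [Pi.add_apply, Finset.sum_add_distrib]; abel
  map_smul' c f := by simp [Finset.smul_sum, smul_add]

omit [DecidableEq F] in
theorem sumP1_apply (f : OnePoint F → A) :
    sumP1 F k A f = f ∞ + ∑ x : F, f (x : OnePoint F) := rfl

theorem sum_onePoint {M : Type*} [AddCommMonoid M] (f : OnePoint F → M) :
    ∑ P : OnePoint F, f P = f ∞ + ∑ x : F, f (x : OnePoint F) :=
  Fintype.sum_option f

/-- The Fourier transform of the finite part. -/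
def heartFourier (ψ : AddChar F k) (A : Type*) [AddCommGroup A] [Module k A] :
    (OnePoint F → A) →ₗ[k] (Fˣ → A) where
  toFun f m := ∑ x : F, ψ ((m : F) * x) • (f (x : OnePoint F) - f ∞)
  map_add' f g := by
    funext m
    simp only [Pi.add_apply, ← Finset.sum_add_distrib, ← smul_add]
    exact Finset.sum_congr rfl fun x _ => by congr 1; abel
  map_smul' c f := by
    funext m
    simp only [Pi.smul_apply, RingHom.id_apply, Finset.smul_sum, ← smul_sub, smul_comm c]

omit [DecidableEq F] in
theorem heartFourier_apply (ψ : AddChar F k) (f : OnePoint F → A) (m : Fˣ) :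
    heartFourier ψ A f m = ∑ x : F, ψ ((m : F) * x) • (f (x : OnePoint F) - f ∞) := rfl

omit [DecidableEq F] in
theorem heartFourier_comp (ψ : AddChar F k) {B : Type*} [AddCommGroup B] [Module k B]
    (L : A →ₗ[k] B) (f : OnePoint F → A) (m : Fˣ) :
    heartFourier ψ B (fun P => L (f P)) m = L (heartFourier ψ A f m) := by
  simp [heartFourier_apply, map_sum]

omit [DecidableEq F] in
theorem heartFourier_const (ψ : AddChar F k) (a : A) : heartFourier ψ A (fun _ => a) = 0 := by
  funext m
  simp [heartFourier_apply]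

omit [DecidableEq F] in
theorem sumP1_surjective : Function.Surjective (sumP1 F k A) := by
  classical
  intro a
  refine ⟨fun P => if P = ∞ then a else 0, ?_⟩
  simp [sumP1_apply]

omit [DecidableEq F] in
theorem sumP1_const (hcard : ((Fintype.card F + 1 : ℕ) : k) = 0) (a : A) :
    sumP1 F k A (fun _ => a) = 0 := by
  rw [sumP1_apply, Finset.sum_const, Finset.card_univ, ← Nat.cast_smul_eq_nsmul k, add_comm]
  nth_rewrite 2 [← one_smul k a]
  rw [← add_smul, ← Nat.cast_one, ← Nat.cast_add, hcard, zero_smul]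

theorem sumP1_comp_smul (g : GL (Fin 2) F) (f : OnePoint F → A) :
    sumP1 F k A (fun P => f (g • P)) = sumP1 F k A f := by
  rw [sumP1_apply, sumP1_apply, ← sum_onePoint (f := fun P => f (g • P)), ← sum_onePoint]
  exact Equiv.sum_comp (MulAction.toPerm g) f

omit [DecidableEq F] in
theorem sum_char_mul {ψ : AddChar F k} (hψ : ψ ≠ 1) {m : F} (hm : m ≠ 0) :
    ∑ x : F, ψ (m * x) = 0 := by
  rw [← AddChar.sum_eq_zero_of_ne_one hψ]
  exact Fintype.sum_equiv (Equiv.mulLeft₀ m hm) _ _ fun x => rfl

/-- Fourier inversion. -/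
theorem sum_char_sum {ψ : AddChar F k} (hψ : ψ ≠ 1) (g : F → A) (y : F) :
    ∑ m : F, ψ (-(m * y)) • (∑ x : F, ψ (m * x) • g x) = (Fintype.card F : k) • g y := by
  simp only [Finset.smul_sum, smul_smul, ← AddChar.map_add_eq_mul]
  rw [Finset.sum_comm, Finset.sum_eq_single y]
  · simp [Finset.card_univ, Nat.cast_smul_eq_nsmul]
  · intro x _ hx
    rw [← Finset.sum_smul]
    have h := sum_char_mul hψ (sub_ne_zero.2 hx)
    rw [Finset.sum_congr rfl (g := fun m => ψ ((x - y) * m)) fun m _ => by congr 1; ring, h,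
      zero_smul]
  · simp

omit [DecidableEq F] in
/-- Every function on `F^*` is the transform of a function of sum zero. -/
theorem exists_heartFourier_eq {ψ : AddChar F k} (hψ : ψ ≠ 1)
    (hq : (Fintype.card F : k) ≠ 0) (φ : Fˣ → A) :
    ∃ f, sumP1 F k A f = 0 ∧ heartFourier ψ A f = φ := by
  classical
  let g : F → A := fun x => (Fintype.card F : k)⁻¹ • ∑ n : Fˣ, ψ (-((n : F) * x)) • φ n
  refine ⟨fun P => Option.elim P 0 g, ?_, ?_⟩
  · show (0 : A) + ∑ x : F, g x = 0
    simp only [g, ← Finset.smul_sum]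
    rw [Finset.sum_comm, Finset.sum_eq_zero, smul_zero, add_zero]
    intro n _
    rw [← Finset.sum_smul]
    simp only [← neg_mul]
    rw [sum_char_mul hψ (neg_ne_zero.2 n.ne_zero), zero_smul]
  · funext m
    show ∑ x : F, ψ ((m : F) * x) • (g x - 0) = φ m
    simp only [g, sub_zero, Finset.smul_sum, smul_smul]
    rw [Finset.sum_comm, Finset.sum_eq_single m]
    · simp only [mul_assoc, mul_left_comm _ ((Fintype.card F : k)⁻¹),
        ← AddChar.map_add_eq_mul, add_neg_cancel, AddChar.map_zero_eq_one, mul_one]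
      rw [Finset.sum_const, Finset.card_univ, ← Nat.cast_smul_eq_nsmul k, smul_smul,
        mul_inv_cancel₀ hq, one_smul]
    · intro n _ hn
      rw [← Finset.sum_smul]
      simp only [mul_assoc, mul_left_comm _ ((Fintype.card F : k)⁻¹), ← AddChar.map_add_eq_mul,
        ← Finset.mul_sum]
      rw [Finset.sum_congr rfl (g := fun x => ψ (((m : F) - n) * x)) fun x _ => by congr 1; ring,
        sum_char_mul hψ (sub_ne_zero.2 fun h => hn (Units.ext h.symm)), mul_zero, zero_smul]
    · simp

omit [DecidableEq F] in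
/-- The finite part has total zero on the kernel of the sum. -/
theorem sum_sub_infty_eq_zero (hcard : ((Fintype.card F + 1 : ℕ) : k) = 0) {f : OnePoint F → A}
    (hf : sumP1 F k A f = 0) : ∑ x : F, (f (x : OnePoint F) - f ∞) = 0 := by
  have h := sumP1_const (A := A) hcard (f ∞)
  rw [sumP1_apply] at hf h
  rw [Finset.sum_sub_distrib, ← add_sub_add_left_eq_sub _ _ (f ∞), hf, h, sub_zero]

/-- The kernel of the transform on the kernel of the sum consists of the constants. -/
theorem heartFourier_eq_zero_iff {ψ : AddChar F k} (hψ : ψ ≠ 1)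
    (hq : (Fintype.card F : k) ≠ 0) (hcard : ((Fintype.card F + 1 : ℕ) : k) = 0)
    {f : OnePoint F → A} (hf : sumP1 F k A f = 0) :
    heartFourier ψ A f = 0 ↔ ∀ P, f P = f ∞ := by
  constructor
  · intro h P
    rcases P with _ | y
    · rfl
    have hall : ∀ m : F, ∑ x : F, ψ (m * x) • (f (x : OnePoint F) - f ∞) = 0 := by
      intro m
      rcases eq_or_ne m 0 with rfl | hm
      · simpa using sum_sub_infty_eq_zero hcard hf
      · exact congrFun h (Units.mk0 m hm)
    have := sum_char_sum hψ (fun x => f (x : OnePoint F) - f ∞) y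
    simp only [hall, smul_zero, Finset.sum_const_zero] at this
    exact sub_eq_zero.1 ((smul_eq_zero.1 this.symm).resolve_left hq)
  · intro h
    rw [show f = fun _ => f ∞ from funext h, heartFourier_const]

/-- Translation goes to multiplication by the character. -/
theorem heartFourier_unipotent (ψ : AddChar F k) (g : GL (Fin 2) F) (b : F)
    (hg : g 0 0 = 1 ∧ g 0 1 = b ∧ g 1 0 = 0 ∧ g 1 1 = 1) (f : OnePoint F → A) (m : Fˣ) :
    heartFourier ψ A (fun P => f (g⁻¹ • P)) m = ψ ((m : F) * b) • heartFourier ψ A f m := by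
  have hi : g⁻¹ • (∞ : OnePoint F) = ∞ := by
    rw [inv_smul_eq_iff, eq_comm, smul_infty_eq_self_iff]; exact hg.2.2.1
  have hx : ∀ x : F, g⁻¹ • (x : OnePoint F) = ((x - b : F) : OnePoint F) := by
    intro x
    rw [inv_smul_eq_iff, smul_some_eq_ite, if_neg (by simp [hg])]
    simp [hg]
  simp only [heartFourier_apply, hi, hx, Finset.smul_sum, smul_smul, ← AddChar.map_add_eq_mul]
  refine Fintype.sum_equiv (Equiv.subRight b) _ _ fun x => ?_
  simp only [Equiv.subRight_apply]
  congr 2
  ring

/-- Diagonal elements go to scaling; in particular scalars act trivially. -/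
theorem heartFourier_diag (ψ : AddChar F k) (g : GL (Fin 2) F) (a d : Fˣ)
    (hg : g 0 0 = a ∧ g 0 1 = 0 ∧ g 1 0 = 0 ∧ g 1 1 = d) (f : OnePoint F → A) (m : Fˣ) :
    heartFourier ψ A (fun P => f (g⁻¹ • P)) m = heartFourier ψ A f (m * a / d) := by
  have hi : g⁻¹ • (∞ : OnePoint F) = ∞ := by
    rw [inv_smul_eq_iff, eq_comm, smul_infty_eq_self_iff]; exact hg.2.2.1
  have hx : ∀ x : F, g⁻¹ • (x : OnePoint F) = ((x * (d : F) / a : F) : OnePoint F) := by
    intro x
    rw [inv_smul_eq_iff, smul_some_eq_ite, if_neg (by simp [hg])]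
    simp only [hg, zero_mul, zero_add, add_zero]
    congr 1
    field_simp
  simp only [heartFourier_apply, hi, hx]
  refine Fintype.sum_equiv (Equiv.mulRight₀ ((d : F) / a) (by simp)) _ _ fun x => ?_
  show ψ ((m : F) * x) • (f ((x * (d : F) / a : F) : OnePoint F) - f ∞) =
    ψ (((m * a / d : Fˣ) : F) * (x * ((d : F) / a))) •
      (f ((x * ((d : F) / a) : F) : OnePoint F) - f ∞)
  rw [mul_div_assoc]
  congr 2
  push_cast
  field_simp

/-- The Weyl element goes to the Kloosterman kernel on the kernel of the sum. -/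
theorem heartFourier_weyl {ψ : AddChar F k} (hψ : ψ ≠ 1) (hq : (Fintype.card F : k) ≠ 0)
    (hcard : ((Fintype.card F + 1 : ℕ) : k) = 0) (g : GL (Fin 2) F)
    (hg : g 0 0 = 0 ∧ g 0 1 = -1 ∧ g 1 0 = 1 ∧ g 1 1 = 0) {f : OnePoint F → A}
    (hf : sumP1 F k A f = 0) (m : Fˣ) :
    heartFourier ψ A (fun P => f (g⁻¹ • P)) m =
      (Fintype.card F : k)⁻¹ • ∑ n : Fˣ, kloosterman ψ (m : F) n • heartFourier ψ A f n := by
  have hi : g⁻¹ • (∞ : OnePoint F) = ((0 : F) : OnePoint F) := by
    rw [inv_smul_eq_iff, smul_some_eq_ite, if_pos (by simp [hg])]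
  have h0 : g⁻¹ • ((0 : F) : OnePoint F) = ∞ := by
    rw [inv_smul_eq_iff, smul_infty_eq_ite, if_neg (by simp [hg])]; simp [hg]
  have hx : ∀ x : F, x ≠ 0 → g⁻¹ • (x : OnePoint F) = ((-1 / x : F) : OnePoint F) := by
    intro x hx
    rw [inv_smul_eq_iff, smul_some_eq_ite, if_neg (by simp [hg, hx])]
    congr 1
    simp only [hg, zero_mul, zero_add, one_mul, add_zero]
    field_simp
  set h : F → A := fun y => f (y : OnePoint F) - f ∞ with hh
  -- the transform of the moved function, in terms of `h`
  have hL : heartFourier ψ A (fun P => f (g⁻¹ • P)) m =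
      ∑ x : F, if x = 0 then 0 else ψ ((m : F) * x) • h (-1 / x) := by
    rw [heartFourier_apply]
    simp only [hi]
    have e : ∀ x : F, ψ ((m : F) * x) • (f (g⁻¹ • (x : OnePoint F)) - f ((0 : F) : OnePoint F)) =
        (if x = 0 then 0 else ψ ((m : F) * x) • h (-1 / x)) +
          (ψ ((m : F) * x) • (f ∞ - f ((0 : F) : OnePoint F))) := by
      intro x
      by_cases hx0 : x = 0
      · subst hx0; simp [h0]
      · rw [if_neg hx0, hx x hx0, hh, ← smul_add, sub_add_sub_cancel]
    rw [Finset.sum_congr rfl fun x _ => e x, Finset.sum_add_distrib, ← Finset.sum_smul,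
      sum_char_mul hψ m.ne_zero, zero_smul, add_zero]
  have hinv : ∀ y : F, h y =
      (Fintype.card F : k)⁻¹ • ∑ n : Fˣ, ψ (-((n : F) * y)) • heartFourier ψ A f n := by
    intro y
    have := sum_char_sum hψ h y
    rw [← Finset.add_sum_erase _ _ (Finset.mem_univ (0 : F))] at this
    simp only [zero_mul, neg_zero, AddChar.map_zero_eq_one, one_smul,
      sum_sub_infty_eq_zero hcard hf, hh, zero_add] at this
    rw [eq_inv_smul_iff₀ hq, ← this]
    refine (Finset.sum_bij (fun (n : Fˣ) _ => (n : F)) (by simp) (fun _ _ _ _ h => Units.ext h)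
      (fun b hb => ⟨Units.mk0 b (Finset.ne_of_mem_erase hb), Finset.mem_univ _, rfl⟩) ?_).symm
    intro n _
    rfl
  rw [hL, Finset.smul_sum]
  calc ∑ x : F, (if x = 0 then (0 : A) else ψ ((m : F) * x) • h (-1 / x))
      = ∑ x : F, ∑ n : Fˣ, (Fintype.card F : k)⁻¹ •
          ((if x = 0 then 0 else ψ ((m : F) * x + (n : F) / x)) • heartFourier ψ A f n) := by
        refine Finset.sum_congr rfl fun x _ => ?_
        by_cases hx0 : x = 0
        · simp [hx0]
        · simp only [if_neg hx0, hinv, Finset.smul_sum]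
          refine Finset.sum_congr rfl fun n _ => ?_
          rw [smul_comm, smul_smul (ψ _), ← AddChar.map_add_eq_mul]
          congr 3
          ring
    _ = _ := by
        rw [Finset.sum_comm]
        refine Finset.sum_congr rfl fun n _ => ?_
        simp only [kloosterman, Finset.sum_smul, Finset.smul_sum]
        refine Finset.sum_congr rfl fun x _ => ?_
        congr 2
        by_cases hx0 : x = 0 <;> simp [hx0]

end Fermat.Agent.TwoAdic.Cuspidal
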