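import Fermat.Agent.TwoAdic.Cuspidal.HeartRep
import Fermat.Agent.TwoAdic.Weil.Plane

/-!
# The Weil kernel summed over a norm fibre is the kernel of the heart

For `det g = 1` and odd `q` with `q + 1 = 0` in `k`: `∑_{N y = n} kern ψ g x y` equals
`heartKernel ψ g (N x) n`. So the Weil representation reduced to the functions of the norm is
`heartRep`.
-/

set_option autoImplicit false
set_option linter.unusedSectionVars false

open scoped BigOperators MatrixGroups

noncomputable section

namespace Fermat.Agent.TwoAdic.Cuspidal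

open Fermat.Agent.TwoAdic.Weil

variable {F E : Type*} [Field F] [Field E] [Fintype F] [Fintype E] [Algebra F E] [DecidableEq F]
  [IsPlane F E] {k : Type*} [Field k] [Invertible (Fintype.card F : k)] {ψ : AddChar F k}

open scoped Classical in
theorem sum_kern_norm_fibre (hψ : ψ ≠ 1) (h2 : (2 : F) ≠ 0) (g : GL (Fin 2) F)
    (hg : g 0 0 * g 1 1 - g 0 1 * g 1 0 = 1) {x : E} {m : Fˣ} (hx : Algebra.norm F x = m)
    (n : Fˣ) :
    ∑ y ∈ Finset.univ.filter (fun y : E => Algebra.norm F y = n),
      kern ψ (g : Matrix (Fin 2) (Fin 2) F) x y = heartKernel ψ g m n := by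
  have hE : Module.finrank F E = 2 := IsPlane.finrank_eq_two
  obtain ⟨a, b, c, d, ha, hb, hc, hd⟩ :
      ∃ a b c d : F, g 0 0 = a ∧ g 0 1 = b ∧ g 1 0 = c ∧ g 1 1 = d :=
    ⟨_, _, _, _, rfl, rfl, rfl, rfl⟩
  simp only [heartKernel, kern, ha, hb, hc, hd] at hg ⊢
  rcases eq_or_ne c 0 with rfl | hc0
  · have had : a * d = 1 := by linear_combination hg
    have hd0 : d ≠ 0 := right_ne_zero_of_mul_eq_one had
    have hiff : (n : F) * d = m * a ↔ Algebra.norm F (a • x) = n := by
      rw [Weil.norm_smul, hx]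
      constructor
      · intro h
        linear_combination (-(a)) * h + (n : F) * had
      · intro h
        linear_combination (-d) * h + (m : F) * a * had
    simp only [if_true]
    rw [Finset.sum_ite_eq' _ (a • x)]
    simp only [Finset.mem_filter, Finset.mem_univ, true_and, ← hiff]
    split_ifs
    · congr 1
      rw [hx]
      field_simp
      linear_combination b * had
    · rfl
  simp only [if_neg hc0, ← Finset.mul_sum, hg, mul_one]
  have hx0 : x ≠ 0 := by
    rintro rfl
    rw [Algebra.norm_zero] at hx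
    exact m.ne_zero hx.symm
  -- the phase separates
  have hsplit : ∀ y ∈ Finset.univ.filter (fun y : E => Algebra.norm F y = n),
      ψ ((a * Algebra.norm F x - planeB F E x y + d * Algebra.norm F y) / c) =
        ψ ((a * (m : F) + d * n) / c) * ψ (Algebra.trace F E ((-c⁻¹) • (x * planeConj F E y))) := by
    intro y hy
    rw [← AddChar.map_add_eq_mul, hx, (Finset.mem_filter.1 hy).2, map_smul, smul_eq_mul]
    congr 1
    rw [planeB]
    field_simp
    ring
  rw [Finset.sum_congr rfl hsplit, ← Finset.mul_sum]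
  -- change variables on the fibre
  have hcx : (-c⁻¹ : F) ≠ 0 := by simp [hc0]
  have hnconj : ∀ y : E, Algebra.norm F (planeConj F E y) = Algebra.norm F y := by
    intro y
    apply (algebraMap F E).injective
    rw [algebraMap_norm, algebraMap_norm, planeConj_planeConj, mul_comm]
  have hN : ∀ y : E, Algebra.norm F ((-c⁻¹) • (x * planeConj F E y)) =
      (c ^ 2)⁻¹ * (m * Algebra.norm F y) := by
    intro y
    rw [Weil.norm_smul, map_mul, hx, hnconj, neg_sq, inv_pow]
  have hbij : ∑ y ∈ Finset.univ.filter (fun y : E => Algebra.norm F y = n),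
        ψ (Algebra.trace F E ((-c⁻¹) • (x * planeConj F E y))) =
      ∑ w ∈ Finset.univ.filter (fun w : E => Algebra.norm F w = (m : F) * n / c ^ 2),
        ψ (Algebra.trace F E w) := by
    refine Finset.sum_bij' (fun y _ => (-c⁻¹) • (x * planeConj F E y))
      (fun w _ => planeConj F E (x⁻¹ * ((-c⁻¹)⁻¹ • w))) ?_ ?_ ?_ ?_ (fun _ _ => rfl)
    · intro y hy
      simp only [Finset.mem_filter, Finset.mem_univ, true_and] at hy ⊢
      rw [hN, hy, div_eq_inv_mul]
    · intro w hw
      simp only [Finset.mem_filter, Finset.mem_univ, true_and] at hw ⊢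
      have hxi : Algebra.norm F x⁻¹ = (m : F)⁻¹ :=
        eq_inv_of_mul_eq_one_left (by rw [← hx, ← map_mul, inv_mul_cancel₀ hx0, map_one])
      rw [hnconj, map_mul, Weil.norm_smul, hw, hxi]
      field_simp
    · intro y _
      rw [inv_smul_smul₀ hcx, inv_mul_cancel_left₀ hx0, planeConj_planeConj]
    · intro w _
      rw [planeConj_planeConj, mul_inv_cancel_left₀ hx0, smul_inv_smul₀ hcx]
  have hk : ∑ w ∈ Finset.univ.filter (fun w : E => Algebra.norm F w = (m : F) * n / c ^ 2),
      ψ (Algebra.trace F E w) = -kloosterman ψ 1 ((m : F) * n / c ^ 2) := by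
    convert sum_norm_fibre_eq_neg_kloosterman hE h2 hψ
      (div_ne_zero (mul_ne_zero m.ne_zero n.ne_zero) (pow_ne_zero 2 hc0))
  rw [hbij, hk,
    kloosterman_eq_one m.ne_zero ψ ((n : F) / c ^ 2), mul_div_assoc, invOf_eq_inv]
  ring

/-- The Weil operator on a function of the norm, vanishing at `0`. -/
theorem sum_kern_mul_norm (hψ : ψ ≠ 1) (h2 : (2 : F) ≠ 0) (g : GL (Fin 2) F)
    (hg : g 0 0 * g 1 1 - g 0 1 * g 1 0 = 1) {A : Type*} [AddCommGroup A] [Module k A]
    (Φ : F → A) (hΦ : Φ 0 = 0) {x : E} {m : Fˣ} (hx : Algebra.norm F x = m) :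
    ∑ y : E, kern ψ (g : Matrix (Fin 2) (Fin 2) F) x y • Φ (Algebra.norm F y) =
      ∑ n : Fˣ, heartKernel ψ g m n • Φ (n : F) := by
  classical
  rw [← Finset.sum_fiberwise_of_maps_to (s := Finset.univ) (t := Finset.univ)
    (g := fun y : E => Algebra.norm F y) (fun _ _ => Finset.mem_univ _),
    ← Finset.add_sum_erase _ _ (Finset.mem_univ (0 : F))]
  have hzero : ∑ y ∈ Finset.univ.filter (fun y : E => Algebra.norm F y = 0),
      kern ψ (g : Matrix (Fin 2) (Fin 2) F) x y • Φ (Algebra.norm F y) = 0 :=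
    Finset.sum_eq_zero fun y hy => by rw [(Finset.mem_filter.1 hy).2, hΦ, smul_zero]
  rw [hzero, zero_add]
  refine (Finset.sum_bij (fun (n : Fˣ) _ => (n : F)) (by simp) (fun _ _ _ _ h => Units.ext h)
    (fun b hb => ⟨Units.mk0 b (Finset.ne_of_mem_erase hb), Finset.mem_univ _, rfl⟩) ?_).symm
  intro n _
  rw [← sum_kern_norm_fibre hψ h2 g hg hx n, Finset.sum_smul]
  exact Finset.sum_congr rfl fun y hy => by rw [(Finset.mem_filter.1 hy).2]

end Fermat.Agent.TwoAdic.Cuspidal
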