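import Fermat.Agent.TwoAdic.Cuspidal.HeartFourier
import Mathlib.RepresentationTheory.Basic

/-!
# The heart of the permutation module on `P¹(F)` as a representation

For a representation `ρ` of a group `G` on `A` and `π : G → GL₂(F)`, with `q + 1 = 0` in `k`,
there are exact sequences of `G`-representations
`0 → kerSum → (P¹(F) → A) → A → 0` and `0 → A → kerSum → (F^* → A) → 0`,
where the last space carries `heartRep`, given by the explicit kernels `heartKernel`.
-/

set_option autoImplicit false
set_option linter.unusedSectionVars false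

open scoped BigOperators MatrixGroups
open OnePoint

noncomputable section

namespace Fermat.Agent.TwoAdic.Cuspidal

variable {F : Type*} [Field F] [Fintype F] [DecidableEq F] {k : Type*} [Field k]
  {A : Type*} [AddCommGroup A] [Module k A]

omit [DecidableEq F] in
theorem card_cast_ne_zero (hcard : ((Fintype.card F + 1 : ℕ) : k) = 0) :
    (Fintype.card F : k) ≠ 0 := by
  intro h
  simp [h] at hcard

/-- The finite part is recovered from the transform on the kernel of the sum. -/
theorem sub_infty_eq_sum {ψ : AddChar F k} (hψ : ψ ≠ 1)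
    (hcard : ((Fintype.card F + 1 : ℕ) : k) = 0) {f : OnePoint F → A}
    (hf : sumP1 F k A f = 0) (y : F) :
    f (y : OnePoint F) - f ∞ =
      (Fintype.card F : k)⁻¹ • ∑ n : Fˣ, ψ (-((n : F) * y)) • heartFourier ψ A f n := by
  have := sum_char_sum hψ (fun y => f (y : OnePoint F) - f ∞) y
  rw [← Finset.add_sum_erase _ _ (Finset.mem_univ (0 : F))] at this
  simp only [zero_mul, neg_zero, AddChar.map_zero_eq_one, one_smul,
    sum_sub_infty_eq_zero hcard hf, zero_add] at this
  rw [eq_inv_smul_iff₀ (card_cast_ne_zero hcard), ← this]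
  refine (Finset.sum_bij (fun (n : Fˣ) _ => (n : F)) (by simp) (fun _ _ _ _ h => Units.ext h)
    (fun b hb => ⟨Units.mk0 b (Finset.ne_of_mem_erase hb), Finset.mem_univ _, rfl⟩) ?_).symm
  intro n _
  rfl

/-- The matrix of `g` on functions on `F^*`. -/
def heartKernel (ψ : AddChar F k) (g : GL (Fin 2) F) (m n : Fˣ) : k :=
  if g 1 0 = 0 then
    if (n : F) * g 1 1 = m * g 0 0 then ψ ((m : F) * g 0 1 / g 1 1) else 0
  else
    (Fintype.card F : k)⁻¹ * (ψ ((g 0 0 * (m : F) + g 1 1 * n) / g 1 0) *
      kloosterman ψ (m : F) ((n : F) * (g 0 0 * g 1 1 - g 0 1 * g 1 0) / g 1 0 ^ 2))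

/-- The transform of a moved function. -/
theorem heartFourier_smul {ψ : AddChar F k} (hψ : ψ ≠ 1)
    (hcard : ((Fintype.card F + 1 : ℕ) : k) = 0) (g : GL (Fin 2) F) {f : OnePoint F → A}
    (hf : sumP1 F k A f = 0) (m : Fˣ) :
    heartFourier ψ A (fun P => f (g⁻¹ • P)) m =
      ∑ n : Fˣ, heartKernel ψ g m n • heartFourier ψ A f n := by
  obtain ⟨a, b, c, d, ha, hb, hc, hd⟩ :
      ∃ a b c d : F, g 0 0 = a ∧ g 0 1 = b ∧ g 1 0 = c ∧ g 1 1 = d :=
    ⟨_, _, _, _, rfl, rfl, rfl, rfl⟩
  have hdet : a * d - b * c ≠ 0 := by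
    have := g.det_ne_zero
    rwa [Matrix.det_fin_two, ha, hb, hc, hd] at this
  simp only [heartKernel, ha, hb, hc, hd]
  rcases eq_or_ne c 0 with rfl | hc0
  · have had : a ≠ 0 ∧ d ≠ 0 := by simpa using hdet
    obtain ⟨ha0, hd0⟩ := had
    have hi : g⁻¹ • (∞ : OnePoint F) = ∞ := by
      rw [inv_smul_eq_iff, eq_comm, smul_infty_eq_self_iff]; exact hc
    have hx : ∀ y : F, g⁻¹ • (((a * y + b) / d : F) : OnePoint F) = (y : OnePoint F) := by
      intro y
      rw [inv_smul_eq_iff, smul_some_eq_ite, hc, hd, ha, hb, zero_mul, zero_add, if_neg hd0]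
    rw [Finset.sum_eq_single (Units.mk0 ((m : F) * a / d) (by simp [ha0, hd0]))]
    · rw [if_pos rfl, if_pos (by simp [Units.val_mk0, hd0]), heartFourier_apply,
        heartFourier_apply, hi, Finset.smul_sum]
      refine (Fintype.sum_equiv ((Equiv.mulLeft₀ (a / d) (by simp [ha0, hd0])).trans
        (Equiv.addRight (b / d))) _ _ fun y => ?_).symm
      have e : a / d * y + b / d = (a * y + b) / d := by ring
      show _ = ψ ((m : F) * (a / d * y + b / d)) •
        (f (g⁻¹ • (((a / d * y + b / d : F)) : OnePoint F)) - f ∞)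
      rw [e, hx, smul_smul, ← AddChar.map_add_eq_mul, Units.val_mk0]
      congr 2
      ring
    · intro n _ hn
      rw [if_pos rfl, if_neg, zero_smul]
      intro h
      refine hn (Units.ext ?_)
      rw [Units.val_mk0, eq_div_iff hd0, h]
    · simp
  simp only [if_neg hc0, mul_smul, ← Finset.smul_sum]
  set D := a * d - b * c with hD
  set h : F → A := fun y => f (y : OnePoint F) - f ∞ with hh
  set α : F := a / c with hα
  have hi : g⁻¹ • (∞ : OnePoint F) = ((-d / c : F) : OnePoint F) := by
    rw [inv_smul_eq_iff, smul_some_eq_ite, if_pos (by rw [hc, hd]; field_simp; ring)]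
  have h0 : g⁻¹ • ((α : F) : OnePoint F) = ∞ := by
    rw [inv_smul_eq_iff, smul_infty_eq_ite, if_neg (by rwa [hc]), ha, hc]
  have hx : ∀ t : F, t ≠ 0 → g⁻¹ • ((α + t : F) : OnePoint F) =
      ((-d / c - D / (c ^ 2 * t) : F) : OnePoint F) := by
    intro t ht
    have e : c * (-d / c - D / (c ^ 2 * t)) + d = -D / (c * t) := by field_simp; ring
    rw [inv_smul_eq_iff, smul_some_eq_ite, hc, hd, ha, hb, e,
      if_neg (by simp [hdet, hc0, ht])]
    congr 1
    rw [hα]
    field_simp
    rw [hD]
    ring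
  have hL : heartFourier ψ A (fun P => f (g⁻¹ • P)) m =
      ∑ t : F, if t = 0 then 0 else
        ψ ((m : F) * (α + t)) • h (-d / c - D / (c ^ 2 * t)) := by
    rw [heartFourier_apply]
    simp only [hi]
    rw [← Equiv.sum_comp (Equiv.addLeft α)]
    simp only [Equiv.coe_addLeft]
    have e : ∀ t : F, ψ ((m : F) * (α + t)) •
          (f (g⁻¹ • ((α + t : F) : OnePoint F)) - f ((-d / c : F) : OnePoint F)) =
        (if t = 0 then 0 else ψ ((m : F) * (α + t)) • h (-d / c - D / (c ^ 2 * t))) +
          ψ ((m : F) * (α + t)) • (f ∞ - f ((-d / c : F) : OnePoint F)) := by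
      intro t
      by_cases ht : t = 0
      · subst ht
        rw [if_pos rfl, zero_add, add_zero, h0]
      · rw [if_neg ht, hx t ht, hh, ← smul_add, sub_add_sub_cancel]
    have hs : ∑ t : F, ψ ((m : F) * (α + t)) = 0 := by
      simp only [mul_add, AddChar.map_add_eq_mul, ← Finset.mul_sum, sum_char_mul hψ m.ne_zero,
        mul_zero]
    rw [Finset.sum_congr rfl fun t _ => e t, Finset.sum_add_distrib, ← Finset.sum_smul, hs,
      zero_smul, add_zero]
  rw [hL]
  simp only [hh, sub_infty_eq_sum hψ hcard hf, Finset.smul_sum]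
  calc _ = ∑ t : F, ∑ n : Fˣ, (Fintype.card F : k)⁻¹ • ψ ((a * (m : F) + d * n) / c) •
          (if t = 0 then 0 else ψ ((m : F) * t + (n : F) * D / c ^ 2 / t)) •
            heartFourier ψ A f n := by
        refine Finset.sum_congr rfl fun t _ => ?_
        by_cases ht : t = 0
        · simp [ht]
        · simp only [if_neg ht]
          refine Finset.sum_congr rfl fun n _ => ?_
          simp only [smul_smul, mul_left_comm _ ((Fintype.card F : k)⁻¹),
            ← AddChar.map_add_eq_mul]
          congr 3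
          rw [hα]
          field_simp
          ring
    _ = _ := by
        rw [Finset.sum_comm]
        refine Finset.sum_congr rfl fun n _ => ?_
        simp only [kloosterman, Finset.sum_smul, Finset.smul_sum]
        refine Finset.sum_congr rfl fun t _ => ?_
        congr 3
        by_cases ht : t = 0 <;> simp [ht]

section Rep

variable {G : Type*} [Group G] (π : G →* GL (Fin 2) F) (ρ : Representation k G A)

/-- Functions on the projective line: `(g f) P = ρ g (f (g⁻¹ • P))`. -/
def p1Rep : Representation k G (OnePoint F → A) where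
  toFun g := LinearMap.pi fun P => (ρ g).comp (LinearMap.proj ((π g)⁻¹ • P))
  map_one' := by
    refine LinearMap.ext fun f => funext fun P => ?_
    simp
  map_mul' g g' := by
    refine LinearMap.ext fun f => funext fun P => ?_
    simp [mul_smul]

omit [Fintype F] in
@[simp] theorem p1Rep_apply (g : G) (f : OnePoint F → A) (P : OnePoint F) :
    p1Rep π ρ g f P = ρ g (f ((π g)⁻¹ • P)) := rfl

theorem sumP1_p1Rep (g : G) (f : OnePoint F → A) :
    sumP1 F k A (p1Rep π ρ g f) = ρ g (sumP1 F k A f) := by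
  rw [show p1Rep π ρ g f = fun P => ρ g (f ((π g)⁻¹ • P)) from rfl,
    sumP1_comp_smul (π g)⁻¹ (fun P => ρ g (f P))]
  simp [sumP1_apply, map_add, map_sum]

variable (F k A) in
/-- The functions of sum zero. -/
abbrev kerSum : Submodule k (OnePoint F → A) := LinearMap.ker (sumP1 F k A)

theorem p1Rep_mem_kerSum (g : G) {f : OnePoint F → A} (hf : f ∈ kerSum F k A) :
    p1Rep π ρ g f ∈ kerSum F k A := by
  rw [LinearMap.mem_ker] at hf ⊢
  rw [sumP1_p1Rep, hf, map_zero]

/-- The representation on functions of sum zero. -/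
def kerSumRep : Representation k G (kerSum F k A) where
  toFun g := (p1Rep π ρ g).restrict fun _ hf => p1Rep_mem_kerSum π ρ g hf
  map_one' := by
    refine LinearMap.ext fun f => Subtype.ext ?_
    show p1Rep π ρ 1 f.1 = f.1
    rw [map_one, Module.End.one_apply]
  map_mul' g g' := by
    refine LinearMap.ext fun f => Subtype.ext ?_
    show p1Rep π ρ (g * g') f.1 = p1Rep π ρ g (p1Rep π ρ g' f.1)
    rw [map_mul, Module.End.mul_apply]

theorem subtype_kerSumRep (g : G) (f : kerSum F k A) :
    (kerSum F k A).subtype (kerSumRep π ρ g f) = p1Rep π ρ g ((kerSum F k A).subtype f) := rfl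

variable (A) in
/-- The constant functions. -/
def constMap (hcard : ((Fintype.card F + 1 : ℕ) : k) = 0) : A →ₗ[k] kerSum F k A :=
  LinearMap.codRestrict _ (LinearMap.pi fun _ => LinearMap.id) fun a =>
    LinearMap.mem_ker.2 (sumP1_const hcard a)

variable (hcard : ((Fintype.card F + 1 : ℕ) : k) = 0)

@[simp] theorem constMap_apply (a : A) (P : OnePoint F) :
    (constMap A hcard a).1 P = a := rfl

theorem constMap_rep (g : G) (a : A) :
    constMap A hcard (ρ g a) = kerSumRep π ρ g (constMap A hcard a) := rfl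

theorem constMap_injective : Function.Injective (constMap (F := F) A hcard) := fun _ _ h =>
  congrFun (congrArg Subtype.val h) ∞

variable {ψ : AddChar F k} (hψ : ψ ≠ 1)

variable (A) (ψ) in
/-- The transform on functions of sum zero. -/
def heartMap : kerSum F k A →ₗ[k] (Fˣ → A) :=
  (heartFourier ψ A).comp (kerSum F k A).subtype

omit [DecidableEq F] in
theorem heartMap_apply (f : kerSum F k A) : heartMap A ψ f = heartFourier ψ A f.1 := rfl

/-- The operator of `g` on functions on `F^*`. -/
def heartEnd (ψ : AddChar F k) (g : G) : Module.End k (Fˣ → A) :=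
  LinearMap.pi fun m => (ρ g).comp (∑ n : Fˣ, heartKernel ψ (π g) m n • LinearMap.proj n)

theorem heartEnd_apply (g : G) (φ : Fˣ → A) (m : Fˣ) :
    heartEnd π ρ ψ g φ m = ρ g (∑ n : Fˣ, heartKernel ψ (π g) m n • φ n) := by
  simp [heartEnd]

include hψ hcard in
theorem heartEnd_heartFourier (g : G) {f : OnePoint F → A} (hf : sumP1 F k A f = 0) :
    heartEnd π ρ ψ g (heartFourier ψ A f) = heartFourier ψ A (p1Rep π ρ g f) := by
  funext m
  rw [heartEnd_apply, ← heartFourier_smul hψ hcard (π g) hf, ← heartFourier_comp]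
  rfl

include hψ hcard in
theorem exists_mem_kerSum (φ : Fˣ → A) :
    ∃ f, sumP1 F k A f = 0 ∧ heartFourier ψ A f = φ :=
  exists_heartFourier_eq hψ (card_cast_ne_zero hcard) φ

/-- The representation on functions on `F^*`. -/
def heartRep : Representation k G (Fˣ → A) where
  toFun := heartEnd π ρ ψ
  map_one' := by
    refine LinearMap.ext fun φ => ?_
    obtain ⟨f, hf, rfl⟩ := exists_mem_kerSum hcard hψ φ
    rw [heartEnd_heartFourier π ρ hcard hψ 1 hf, map_one, Module.End.one_apply,
      Module.End.one_apply]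
  map_mul' g g' := by
    refine LinearMap.ext fun φ => ?_
    obtain ⟨f, hf, rfl⟩ := exists_mem_kerSum hcard hψ φ
    rw [Module.End.mul_apply, heartEnd_heartFourier π ρ hcard hψ g' hf,
      heartEnd_heartFourier π ρ hcard hψ _ hf, heartEnd_heartFourier π ρ hcard hψ g
        (p1Rep_mem_kerSum π ρ g' (LinearMap.mem_ker.2 hf)), map_mul, Module.End.mul_apply]

theorem heartRep_apply (g : G) (φ : Fˣ → A) (m : Fˣ) :
    heartRep π ρ hcard hψ g φ m = ρ g (∑ n : Fˣ, heartKernel ψ (π g) m n • φ n) :=
  heartEnd_apply π ρ g φ m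

theorem heartMap_rep (g : G) (f : kerSum F k A) :
    heartMap A ψ (kerSumRep π ρ g f) = heartRep π ρ hcard hψ g (heartMap A ψ f) :=
  (heartEnd_heartFourier π ρ hcard hψ g (LinearMap.mem_ker.1 f.2)).symm

include hψ hcard in
theorem heartMap_surjective : Function.Surjective (heartMap A ψ) := fun φ => by
  obtain ⟨f, hf, he⟩ := exists_mem_kerSum hcard hψ φ
  exact ⟨⟨f, hf⟩, he⟩

include hψ in
theorem ker_heartMap : LinearMap.ker (heartMap A ψ) = LinearMap.range (constMap A hcard) := by
  refine le_antisymm (fun f hf => ?_) ?_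
  · have h := (heartFourier_eq_zero_iff hψ (card_cast_ne_zero hcard) hcard
      (LinearMap.mem_ker.1 f.2)).1 hf
    exact ⟨f.1 ∞, Subtype.ext (funext fun P => (h P).symm)⟩
  · rintro _ ⟨a, rfl⟩
    exact heartFourier_const ψ a

omit [DecidableEq F] in
theorem ker_sumP1_eq : LinearMap.ker (sumP1 F k A) = LinearMap.range (kerSum F k A).subtype :=
  (Submodule.range_subtype _).symm

theorem p1Rep_eq_one_of_scalar {g : G}
    (hg : (π g) 0 1 = 0 ∧ (π g) 1 0 = 0 ∧ (π g) 0 0 = (π g) 1 1) (hρ : ρ g = 1) :
    p1Rep π ρ g = 1 := by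
  refine LinearMap.ext fun f => funext fun P => ?_
  have hd : (π g) 1 1 ≠ 0 := by
    intro h
    have := (π g).det_ne_zero
    simp [Matrix.det_fin_two, hg.1, hg.2.1, h] at this
  have hP : (π g)⁻¹ • P = P := by
    rw [inv_smul_eq_iff]
    rcases P with _ | x
    · exact (smul_infty_eq_self_iff.2 hg.2.1).symm
    · refine Eq.symm ?_
      show π g • (x : OnePoint F) = (x : OnePoint F)
      rw [smul_some_eq_ite, hg.2.1, hg.1, hg.2.2, zero_mul, zero_add, if_neg hd, add_zero,
        mul_comm, mul_div_cancel_right₀ x hd]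
  rw [p1Rep_apply, hρ, hP]
  rfl

/-- Elements that are scalar in `GL₂(F)` and trivial on `A` are trivial on the heart. -/
theorem heartRep_eq_one_of_scalar {g : G}
    (hg : (π g) 0 1 = 0 ∧ (π g) 1 0 = 0 ∧ (π g) 0 0 = (π g) 1 1) (hρ : ρ g = 1) :
    heartRep π ρ hcard hψ g = 1 := by
  refine LinearMap.ext fun φ => ?_
  obtain ⟨f, hf, rfl⟩ := exists_mem_kerSum hcard hψ φ
  show heartEnd π ρ ψ g _ = _
  rw [heartEnd_heartFourier π ρ hcard hψ g hf, p1Rep_eq_one_of_scalar π ρ hg hρ,
    Module.End.one_apply, Module.End.one_apply]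

end Rep

end Fermat.Agent.TwoAdic.Cuspidal
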