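import Mathlib.FieldTheory.Finite.Trace
import Mathlib.NumberTheory.LegendreSymbol.AddCharacter

/-!
# Kloosterman sums as sums over a norm fibre

For a quadratic extension `E/F` of finite fields of odd characteristic and `a ≠ 0`:
`∑_{N w = a} ψ (tr w) = - ∑_{x ∈ F^*} ψ (x + a / x)`.
-/

set_option autoImplicit false

open scoped BigOperators

noncomputable section

namespace Fermat.Agent.TwoAdic.Cuspidal

variable {F : Type*} [Field F] [Fintype F] {R : Type*} [CommRing R]

open scoped Classical in
/-- The Kloosterman sum `K(m, n)`. -/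
def kloosterman (ψ : AddChar F R) (m n : F) : R :=
  ∑ x : F, if x = 0 then 0 else ψ (m * x + n / x)

open scoped Classical in
theorem kloosterman_eq_one {m : F} (hm : m ≠ 0) (ψ : AddChar F R) (n : F) :
    kloosterman ψ m n = kloosterman ψ 1 (m * n) := by
  unfold kloosterman
  refine Fintype.sum_equiv (Equiv.mulLeft₀ m hm) _ _ fun x => ?_
  show (if x = 0 then 0 else ψ (m * x + n / x)) =
    if m * x = 0 then 0 else ψ (1 * (m * x) + m * n / (m * x))
  simp only [mul_eq_zero, hm, false_or, one_mul, mul_div_mul_left n x hm]

variable {E : Type*} [Field E] [Fintype E] [Algebra F E]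

theorem algebraMap_norm_trace (hE : Module.finrank F E = 2) (w : E) :
    algebraMap F E (Algebra.norm F w) = w * w ^ Fintype.card F ∧
      algebraMap F E (Algebra.trace F E w) = w + w ^ Fintype.card F := by
  rw [FiniteField.algebraMap_norm_eq_prod_pow, FiniteField.algebraMap_trace_eq_sum_pow, hE,
    Nat.card_eq_fintype_card]
  simp [Finset.prod_range_succ, Finset.sum_range_succ]

theorem exists_root (hE : Module.finrank F E = 2) (hF : (2 : F) ≠ 0) (t a : F) :
    ∃ r : E, r ^ 2 - algebraMap F E t * r + algebraMap F E a = 0 := by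
  set d := t ^ 2 - 4 * a with hd
  obtain ⟨s, hs⟩ : IsSquare (algebraMap F E d) := by
    rcases eq_or_ne d 0 with h0 | h0
    · rw [h0, map_zero]; exact IsSquare.zero
    have hchar : ringChar F ≠ 2 := fun h => hF (by
      haveI := ringChar.of_eq h; exact CharTwo.two_eq_zero)
    rw [FiniteField.isSquare_iff (by rwa [← Algebra.ringChar_eq F E])
      (by rwa [map_ne_zero]), ← map_pow]
    have hcard : Fintype.card E = Fintype.card F ^ 2 := by
      rw [Module.card_eq_pow_finrank (K := F), hE]
    have hodd : Fintype.card F % 2 = 1 := FiniteField.odd_card_of_char_ne_two hchar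
    have hexp : Fintype.card E / 2 = (Fintype.card F - 1) * ((Fintype.card F + 1) / 2) := by
      obtain ⟨m, hm⟩ : ∃ m, Fintype.card F = 2 * m + 1 := ⟨Fintype.card F / 2, by omega⟩
      rw [hcard, hm, show 2 * m + 1 - 1 = 2 * m by omega, show (2 * m + 1 + 1) / 2 = m + 1 by omega]
      rw [show (2 * m + 1) ^ 2 = 1 + 2 * (2 * m * (m + 1)) by ring, Nat.add_mul_div_left _ _ two_pos]
      norm_num
    rw [hexp, pow_mul, FiniteField.pow_card_sub_one_eq_one d h0, one_pow, map_one]
  refine ⟨(algebraMap F E t + s) / 2, ?_⟩
  have h2 : (2 : E) ≠ 0 := by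
    rw [← map_ofNat (algebraMap F E) 2, map_ne_zero]; exact hF
  rw [hd, map_sub, map_pow, map_mul, map_ofNat] at hs
  field_simp
  linear_combination (-1 : E) * hs

open scoped Classical

/-- For each trace, norm fibre points and solutions of `x + a/x = t` are two in total. -/
theorem card_fibre (hE : Module.finrank F E = 2) (hF : (2 : F) ≠ 0) {a : F} (ha : a ≠ 0) (t : F) :
    (Finset.univ.filter fun w : E => Algebra.norm F w = a ∧ Algebra.trace F E w = t).card +
      (Finset.univ.filter fun x : F => x ≠ 0 ∧ x + a / x = t).card = 2 := by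
  set ι := algebraMap F E with hι
  have hinj : Function.Injective ι := ι.injective
  set q := Fintype.card F
  obtain ⟨r, hr⟩ := exists_root (E := E) hE hF t a
  set r' := ι t - r with hr'
  have hprod : r * r' = ι a := by rw [hr']; linear_combination -hr
  have hroot : ∀ w : E, w ^ 2 - ι t * w + ι a = 0 → w = r ∨ w = r' := by
    intro w hw
    have : (w - r) * (w - r') = 0 := by rw [hr']; linear_combination hw - hr
    exact (mul_eq_zero.1 this).imp sub_eq_zero.1 sub_eq_zero.1
  have hfix : ∀ x : F, (ι x) ^ q = ι x := fun x => by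
    rw [hι, ← map_pow, FiniteField.pow_card]
  have hfrob : ∀ {w : E}, w ^ 2 - ι t * w + ι a = 0 →
      (w ^ q) ^ 2 - ι t * w ^ q + ι a = 0 := by
    intro w hw
    have := congrArg (FiniteField.frobeniusAlgHom F E) hw
    rw [map_zero, map_add, map_sub, map_mul, map_pow] at this
    simp only [FiniteField.coe_frobeniusAlgHom] at this
    rwa [hfix, hfix] at this
  have hW : ∀ w : E, (Algebra.norm F w = a ∧ Algebra.trace F E w = t) ↔
      (w * w ^ q = ι a ∧ w + w ^ q = ι t) := by
    intro w
    obtain ⟨hn, ht⟩ := algebraMap_norm_trace hE w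
    rw [← hn, ← ht]
    exact ⟨fun h => ⟨by rw [h.1], by rw [h.2]⟩, fun h => ⟨hinj h.1, hinj h.2⟩⟩
  have hWroot : ∀ w : E, w * w ^ q = ι a → w + w ^ q = ι t → w ^ 2 - ι t * w + ι a = 0 := by
    intro w h1 h2; rw [← h1, ← h2]; ring
  have hX : ∀ x : F, (x ≠ 0 ∧ x + a / x = t) ↔ (ι x) ^ 2 - ι t * ι x + ι a = 0 := by
    intro x
    rw [hι, ← map_pow, ← map_mul, ← map_sub, ← map_add, map_eq_zero]
    constructor
    · rintro ⟨hx, rfl⟩; field_simp; ring
    · intro h
      have hx : x ≠ 0 := by rintro rfl; exact ha (by simpa using h)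
      refine ⟨hx, ?_⟩
      field_simp
      linear_combination h
  by_cases hrat : ∃ x : F, ι x = r
  · obtain ⟨x, rfl⟩ := hrat
    set x' := t - x with hx'
    have hr'x : r' = ι x' := by rw [hr', hx', map_sub]
    have hXs : (Finset.univ.filter fun y : F => y ≠ 0 ∧ y + a / y = t) = {x, x'} := by
      ext y
      simp only [Finset.mem_filter, Finset.mem_univ, true_and, hX, Finset.mem_insert,
        Finset.mem_singleton]
      constructor
      · intro h
        rcases hroot _ h with h | h
        · exact Or.inl (hinj h)
        · exact Or.inr (hinj (h.trans hr'x))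
      · rintro (rfl | rfl)
        · exact hr
        · rw [← hr'x, hr']; linear_combination hr
    have hWs : (Finset.univ.filter fun w : E => Algebra.norm F w = a ∧ Algebra.trace F E w = t) =
        if x = x' then {ι x} else ∅ := by
      ext w
      simp only [Finset.mem_filter, Finset.mem_univ, true_and, hW]
      constructor
      · rintro ⟨h1, h2⟩
        obtain ⟨y, rfl⟩ : ∃ y, w = ι y := by
          rcases hroot w (hWroot w h1 h2) with h | h
          · exact ⟨x, h⟩
          · exact ⟨x', h.trans hr'x⟩
        rw [hfix] at h1 h2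
        have hy2 : 2 * y = t := hinj (by rw [← h2, map_mul, map_ofNat]; ring)
        have hy : (ι y) ^ 2 - ι t * ι y + ι a = 0 := hWroot _ (by rw [hfix]; exact h1) (by rw [hfix]; exact h2)
        have hyx : y = x := by
          rcases hroot _ hy with h | h
          · exact hinj h
          · have := hinj (h.trans hr'x)
            rw [hx'] at this
            linear_combination hy2 - this
        subst hyx
        rw [if_pos (by rw [hx', ← hy2]; ring)]
        simp
      · intro h
        split_ifs at h with he
        · rw [Finset.mem_singleton.1 h, hfix]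
          have htx : ι t = ι x + ι x := by rw [← map_add]; congr 1; rw [hx'] at he; linear_combination -he
          refine ⟨?_, htx.symm⟩
          rw [← hprod, hr', htx]; ring
        · simp at h
    rw [hXs, hWs]
    by_cases he : x = x'
    · simp [he]
    · simp [he, Finset.card_pair he]
  · push Not at hrat
    have hXs : (Finset.univ.filter fun y : F => y ≠ 0 ∧ y + a / y = t) = ∅ := by
      rw [Finset.filter_eq_empty_iff]
      intro y _
      rw [hX]
      intro h
      rcases hroot _ h with h | h
      · exact hrat y h
      · exact hrat (t - y) (by rw [map_sub, h, hr']; ring)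
    have hrq : r ^ q ≠ r := by
      intro he
      have hq1 : 1 < q := Fintype.one_lt_card
      have h0 : (Polynomial.X ^ q - Polynomial.X : Polynomial E) ≠ 0 :=
        FiniteField.X_pow_card_sub_X_ne_zero E hq1
      have hsub : Finset.univ.image ι ⊆ (Polynomial.X ^ q - Polynomial.X : Polynomial E).roots.toFinset := by
        intro y hy
        obtain ⟨x, -, rfl⟩ := Finset.mem_image.1 hy
        simp [Polynomial.mem_roots h0, Polynomial.IsRoot, hfix]
      have hle : (Polynomial.X ^ q - Polynomial.X : Polynomial E).roots.toFinset.card ≤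
          (Finset.univ.image ι).card := by
        rw [Finset.card_image_of_injective _ hinj, Finset.card_univ]
        refine (Multiset.toFinset_card_le _).trans ((Polynomial.card_roots' _).trans ?_)
        rw [FiniteField.X_pow_card_sub_X_natDegree_eq E hq1]
      have hmem : r ∈ (Polynomial.X ^ q - Polynomial.X : Polynomial E).roots.toFinset := by
        simp [Polynomial.mem_roots h0, Polynomial.IsRoot, he]
      rw [← Finset.eq_of_subset_of_card_le hsub hle] at hmem
      obtain ⟨y, -, hy⟩ := Finset.mem_image.1 hmem
      exact hrat y hy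
    have hrq' : r ^ q = r' := (hroot _ (hfrob hr)).resolve_left hrq
    have hne : r ≠ r' := fun h => hrq (hrq'.trans h.symm)
    have hr'q : r' ^ q = r := by
      have h2 : (ι t - r) ^ q = ι t - r ^ q := by
        have := map_sub (FiniteField.frobeniusAlgHom F E) (ι t) r
        simp only [FiniteField.coe_frobeniusAlgHom] at this
        rwa [hfix] at this
      rw [hr', h2, hrq', hr']; ring
    have hWs : (Finset.univ.filter fun w : E => Algebra.norm F w = a ∧ Algebra.trace F E w = t) =
        {r, r'} := by
      ext w
      simp only [Finset.mem_filter, Finset.mem_univ, true_and, hW, Finset.mem_insert,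
        Finset.mem_singleton]
      constructor
      · rintro ⟨h1, h2⟩; exact hroot w (hWroot w h1 h2)
      · rintro (rfl | rfl)
        · rw [hrq']; exact ⟨hprod, by rw [hr']; ring⟩
        · rw [hr'q]; exact ⟨by rw [mul_comm]; exact hprod, by rw [hr']; ring⟩
    rw [hXs, hWs, Finset.card_pair hne]
    simp

variable [IsDomain R]

/-- The norm fibre sum is minus the Kloosterman sum. -/
theorem sum_norm_fibre_eq_neg_kloosterman (hE : Module.finrank F E = 2) (hF : (2 : F) ≠ 0)
    {ψ : AddChar F R} (hψ : ψ ≠ 1) {a : F} (ha : a ≠ 0) :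
    ∑ w ∈ Finset.univ.filter (fun w : E => Algebra.norm F w = a), ψ (Algebra.trace F E w) =
      -kloosterman ψ 1 a := by
  have h1 : kloosterman ψ 1 a =
      ∑ x ∈ Finset.univ.filter (fun x : F => x ≠ 0), ψ (x + a / x) := by
    rw [kloosterman, Finset.sum_filter]
    exact Finset.sum_congr rfl fun x _ => by by_cases h : x = 0 <;> simp [h]
  rw [h1, eq_neg_iff_add_eq_zero,
    ← Finset.sum_fiberwise (s := Finset.univ.filter fun w : E => Algebra.norm F w = a)
      (g := fun w => Algebra.trace F E w),
    ← Finset.sum_fiberwise (s := Finset.univ.filter fun x : F => x ≠ 0) (g := fun x => x + a / x),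
    ← Finset.sum_add_distrib]
  have h2 : ∀ t : F, (∑ w ∈ (Finset.univ.filter fun w : E => Algebra.norm F w = a).filter
        (fun w => Algebra.trace F E w = t), ψ (Algebra.trace F E w)) +
      (∑ x ∈ (Finset.univ.filter fun x : F => x ≠ 0).filter (fun x => x + a / x = t),
        ψ (x + a / x)) = 2 * ψ t := by
    intro t
    rw [Finset.sum_congr rfl (g := fun _ => ψ t) fun w hw =>
        congrArg ψ (Finset.mem_filter.1 hw).2,
      Finset.sum_congr (s₁ := (Finset.univ.filter fun x : F => x ≠ 0).filter fun x => x + a / x = t)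
        rfl (g := fun _ => ψ t) fun x hx => congrArg ψ (Finset.mem_filter.1 hx).2,
      Finset.sum_const, Finset.sum_const, ← add_nsmul, Finset.filter_filter, Finset.filter_filter,
      card_fibre hE hF ha t, two_nsmul, two_mul]
  rw [Finset.sum_congr rfl fun t _ => h2 t, ← Finset.mul_sum, AddChar.sum_eq_zero_of_ne_one hψ,
    mul_zero]

end Fermat.Agent.TwoAdic.Cuspidal
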